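import Fermat.Agent.S55.G.Rec.L5H241.Transport
import Fermat.Agent.S55.H413.WRSub
import Fermat.Agent.S55.H953.PadicNormIndex

/-!
# S55 / layer G / block REC, leaf L5 (helper241): norms from local cyclotomic fields

`localCycloNorm : LocalCycloNormSpec`.

Route (purely local): `L = ℚ_ℓ(ζ)`, `ζ` a primitive `ℓ^e`-th root of unity in `PadicAlgCl ℓ`;
`E ⊆ L` the fixed field of (the image of) `W`.  By `Transport.lean`, `relNorm W b` is the field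
norm `N_{E/ℚ_ℓ} b`.  By helper413's `normRange_intermediate_le` (which rests on `N(ζ - 1) = ℓ`,
Hensel and the local norm index theorem `H953.padic_norm_index_eq_finrank`) the unit part of a norm
from `E` is killed, modulo `ℓ^e`, by `[L : E] = |Gal(L/E)|`; as `(ℤ/ℓ^e)ˣ` is cyclic it lies in the
image of `Gal(L/E)` under the cyclotomic character.  The sign is `s = 1`.
-/

set_option autoImplicit false
set_option linter.style.haveILetI false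

namespace Fermat.Agent.S55.G.Rec.L5H241

open IntermediateField Polynomial

/-- (L5) norms from subfields of the local cyclotomic field `ℚ_ℓ(μ_{ℓ^e})`. -/
theorem localCycloNorm : LocalCycloNormSpec := by
  intro ℓ _ hℓ2 e he W hW b hb
  obtain ⟨n, rfl⟩ : ∃ n, e = n + 1 := ⟨e - 1, by omega⟩
  classical
  have hℓ : ℓ.Prime := Fact.out
  haveI : NeZero (ℓ ^ (n + 1)) := ⟨(pow_pos hℓ.pos _).ne'⟩
  obtain ⟨ζ, hζ⟩ := HasEnoughRootsOfUnity.exists_primitiveRoot (PadicAlgCl ℓ) (ℓ ^ (n + 1))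
  -- the cyclotomic field
  set L : IntermediateField ℚ_[ℓ] (PadicAlgCl ℓ) := ℚ_[ℓ]⟮ζ⟯ with hL
  haveI hcyc : IsCyclotomicExtension {ℓ ^ (n + 1)} ℚ_[ℓ] ↥L :=
    hζ.intermediateField_adjoin_isCyclotomicExtension ℚ_[ℓ]
  haveI : FiniteDimensional ℚ_[ℓ] ↥L :=
    IsCyclotomicExtension.finiteDimensional {ℓ ^ (n + 1)} ℚ_[ℓ] ↥L
  haveI : IsGalois ℚ_[ℓ] ↥L := IsCyclotomicExtension.isGalois {ℓ ^ (n + 1)} ℚ_[ℓ] ↥L
  have hζL : ζ ∈ L := mem_adjoin_simple_self ℚ_[ℓ] ζ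
  have hLW : L.fixingSubgroup ≤ W := by
    intro τ hτ
    apply hW
    intro ξ hξ
    obtain ⟨i, -, rfl⟩ := hζ.eq_pow_of_pow_eq_one hξ
    have h : τ ζ = ζ := (IntermediateField.mem_fixingSubgroup_iff L τ).1 hτ ζ hζL
    rw [map_pow, h]
  set ρ := AlgEquiv.restrictNormalHom (F := ℚ_[ℓ]) (K₁ := PadicAlgCl ℓ) ↥L with hρ
  set H := W.map ρ with hH
  set E := fixedField H with hE
  obtain ⟨bE, hbE, hnorm⟩ : ∃ bE : ↥E, (((bE : ↥L) : PadicAlgCl ℓ) = (b : PadicAlgCl ℓ)) ∧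
      ((relNorm W b : (PadicAlgCl ℓ)ˣ) : PadicAlgCl ℓ) =
        algebraMap ℚ_[ℓ] (PadicAlgCl ℓ) (Algebra.norm ℚ_[ℓ] bE) :=
    exists_norm_eq_relNorm ℓ L W hLW b hb
  have hbE0 : bE ≠ 0 := by
    intro h0
    rw [h0] at hbE
    exact b.ne_zero hbE.symm
  -- the norm as a unit
  set x : ℚ_[ℓ]ˣ := Units.map (Algebra.norm ℚ_[ℓ] : ↥E →* ℚ_[ℓ]) (Units.mk0 bE hbE0) with hx
  have hxval : (x : ℚ_[ℓ]) = Algebra.norm ℚ_[ℓ] bE := rfl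
  have hirr := H413.irreducible_cyclotomic_padic ℓ n
  let χ := IsCyclotomicExtension.autEquivPow ↥L hirr
  haveI hcycZ : IsCyclic (ZMod (ℓ ^ (n + 1)))ˣ :=
    ZMod.isCyclic_units_of_prime_pow ℓ hℓ hℓ2 (n + 1)
  haveI : IsCyclic (↥L ≃ₐ[ℚ_[ℓ]] ↥L) := isCyclic_of_surjective χ.symm χ.symm.surjective
  have hNIF : (H413.normRange ℓ ↥L).index = Module.finrank ℚ_[ℓ] ↥L :=
    H953.padic_norm_index_eq_finrank ℓ ℚ_[ℓ] ↥L
  have hle := H413.normRange_intermediate_le ℓ n ↥L hℓ2 E hNIF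
  have hxmem : x ∈ H413.normRange ℓ ↥E := ⟨_, rfl⟩
  have hwild := (H413.mem_wildKer_iff ℓ (n + 1) _ x).1 (hle hxmem)
  rw [H413.wildChar_apply, inv_pow, inv_eq_one, finrank_fixedField_eq_card] at hwild
  have hcardS : Nat.card (H.map χ.toMonoidHom) = Nat.card H :=
    Subgroup.card_map_of_injective χ.injective
  have hmemS : H413.unitResidue ℓ (n + 1) x ∈ H.map χ.toMonoidHom := by
    apply cyclic_mem_of_pow_card_eq_one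
    rw [hcardS]
    exact hwild
  obtain ⟨h, hhH, hχh⟩ := hmemS
  obtain ⟨τ, hτW, rfl⟩ := hhH
  set t := (H413.unitResidue ℓ (n + 1) x : ZMod (ℓ ^ (n + 1))).val with ht
  -- the action of `τ` on roots of unity
  have hτζ : ∀ ξ : PadicAlgCl ℓ, ξ ^ (ℓ ^ (n + 1)) = 1 → τ ξ = ξ ^ t := by
    intro ξ hξ
    obtain ⟨i, -, rfl⟩ := hζ.eq_pow_of_pow_eq_one hξ
    have hz := IsCyclotomicExtension.zeta_spec (ℓ ^ (n + 1)) ℚ_[ℓ] ↥L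
    have hζ' : (⟨ζ, hζL⟩ : ↥L) ^ (ℓ ^ (n + 1)) = 1 := by
      apply Subtype.ext
      exact hζ.pow_eq_one
    obtain ⟨j, -, hj⟩ := hz.eq_pow_of_pow_eq_one hζ'
    have hspec := hz.autToPow_spec ℚ_[ℓ] (ρ τ)
    have hχ : ((χ (ρ τ) : (ZMod (ℓ ^ (n + 1)))ˣ) : ZMod (ℓ ^ (n + 1))).val = t := by
      rw [ht]
      congr 2
    have h1 : (ρ τ) (⟨ζ, hζL⟩ : ↥L) = (⟨ζ, hζL⟩ : ↥L) ^ t := by
      rw [← hj, map_pow, ← hχ]
      have : (χ (ρ τ) : (ZMod (ℓ ^ (n + 1)))ˣ) = hz.autToPow ℚ_[ℓ] (ρ τ) := rfl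
      rw [this, ← hspec, ← pow_mul, ← pow_mul, mul_comm]
    have h2 := AlgEquiv.restrictNormalHom_apply L τ ⟨ζ, hζL⟩
    have h3 : τ ζ = ζ ^ t := by
      rw [← h2, ← hρ, h1]
      rfl
    rw [map_pow, h3, ← pow_mul, ← pow_mul, mul_comm]
  refine ⟨(x : ℚ_[ℓ]).valuation, 1, t, τ, hτW, hτζ, ?_⟩
  rw [hnorm]
  set k := (x : ℚ_[ℓ]).valuation with hk
  set u : ℤ_[ℓ] := ((H413.unitPart ℓ x : ℤ_[ℓ]ˣ) : ℤ_[ℓ]) with hu
  have hxu : Algebra.norm ℚ_[ℓ] bE = (u : ℚ_[ℓ]) * (ℓ : ℚ_[ℓ]) ^ k := H413.eq_unitPart_mul ℓ x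
  have hmem : u - (t : ℤ_[ℓ]) ∈ Ideal.span {(ℓ : ℤ_[ℓ]) ^ (n + 1)} := by
    rw [← PadicInt.ker_toZModPow, RingHom.mem_ker, map_sub, map_natCast, sub_eq_zero,
      ← H413.coe_unitResidue, ht, ZMod.natCast_zmod_val]
  have hnu : ‖u - (t : ℤ_[ℓ])‖ ≤ (ℓ : ℝ) ^ (-((n + 1 : ℕ) : ℤ)) :=
    (PadicInt.norm_le_pow_iff_mem_span_pow _ _).2 hmem
  have hkey : algebraMap ℚ_[ℓ] (PadicAlgCl ℓ) (Algebra.norm ℚ_[ℓ] bE) -
      (((1 : ℤˣ) : ℤ) : PadicAlgCl ℓ) * (ℓ : PadicAlgCl ℓ) ^ k * (t : PadicAlgCl ℓ) =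
      algebraMap ℚ_[ℓ] (PadicAlgCl ℓ)
        ((ℓ : ℚ_[ℓ]) ^ k * (((u - (t : ℤ_[ℓ]) : ℤ_[ℓ]) : ℚ_[ℓ]))) := by
    rw [hxu]
    simp only [Units.val_one, Int.cast_one, one_mul, map_mul, map_zpow₀, map_natCast, map_sub,
      PadicInt.coe_sub, PadicInt.coe_natCast]
    ring
  have hnℓ : ‖(ℓ : PadicAlgCl ℓ)‖ = (ℓ : ℝ)⁻¹ := by
    rw [← map_natCast (algebraMap ℚ_[ℓ] (PadicAlgCl ℓ)), norm_algebraMap', Padic.norm_p]
  have hℓpos : (0 : ℝ) < (ℓ : ℝ)⁻¹ := inv_pos.2 (by exact_mod_cast hℓ.pos)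
  rw [hkey, norm_algebraMap', norm_mul, norm_zpow, Padic.norm_p, hnℓ, zpow_add₀ hℓpos.ne']
  apply mul_le_mul_of_nonneg_left _ (zpow_nonneg hℓpos.le _)
  have h5 : ‖(((u - (t : ℤ_[ℓ]) : ℤ_[ℓ]) : ℚ_[ℓ]))‖ = ‖u - (t : ℤ_[ℓ])‖ := rfl
  rw [h5]
  refine hnu.trans (le_of_eq ?_)
  rw [zpow_neg, inv_zpow]

end Fermat.Agent.S55.G.Rec.L5H241
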