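import Fermat.Agent.S55.G.Rec.Spec2
import Fermat.Agent.S55.BLocal.Range

/-!
# S55 / layer G / block REC, leaf L5 (helper241), part 1: transport of norms

For a finite Galois subextension `L / ℚ_ℓ` of `PadicAlgCl ℓ` and a subgroup `W` of the local Galois
group containing the fixing subgroup of `L`, the "group-theoretic norm" `relNorm W b` of a
`W`-fixed element `b` is the field norm of `b`, viewed as an element of the fixed field of (the
image of) `W` inside `L`.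

* `cyclic_mem_of_pow_card_eq_one` : in a finite cyclic group an element killed by the order of a
  subgroup belongs to this subgroup.
* `exists_norm_eq_relNorm` : the transport statement.
-/

set_option autoImplicit false
set_option linter.style.haveILetI false

namespace Fermat.Agent.S55.G.Rec.L5H241

open IntermediateField

/-- In a finite cyclic group, an element killed by the order of a subgroup lies in it. -/
theorem cyclic_mem_of_pow_card_eq_one {C : Type*} [CommGroup C] [Finite C] [IsCyclic C]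
    (S : Subgroup C) (c : C) (hc : c ^ Nat.card S = 1) : c ∈ S := by
  classical
  have hdvd : Nat.card S ∣ Nat.card C := Subgroup.card_subgroup_dvd_card S
  have hCpos : 0 < Nat.card C := Nat.card_pos
  have hSle : S ≤ (powMonoidHom (Nat.card S) : C →* C).ker := by
    intro x hx
    rw [MonoidHom.mem_ker, powMonoidHom_apply]
    have h := pow_card_eq_one' (G := S) (x := ⟨x, hx⟩)
    exact congrArg Subtype.val h
  have hcard : Nat.card (powMonoidHom (Nat.card S) : C →* C).ker ≤ Nat.card S := by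
    have h1 := IsCyclic.card_powMonoidHom_range C (Nat.card S)
    rw [Nat.gcd_eq_right hdvd] at h1
    have h2 := Subgroup.card_mul_index (powMonoidHom (Nat.card S) : C →* C).ker
    rw [Subgroup.index_ker, h1] at h2
    obtain ⟨q, hq⟩ := hdvd
    have hSpos : 0 < Nat.card S := Nat.card_pos
    have hqpos : 0 < q := by
      rcases Nat.eq_zero_or_pos q with h | h
      · rw [h, mul_zero] at hq; omega
      · exact h
    rw [hq, Nat.mul_div_cancel_left _ hSpos] at h2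
    exact le_of_eq (Nat.eq_of_mul_eq_mul_right hqpos h2)
  have h := Subgroup.eq_of_le_of_card_ge hSle hcard
  rw [h, MonoidHom.mem_ker, powMonoidHom_apply]
  exact hc

section Transport

variable (ℓ : ℕ) [Fact ℓ.Prime]

/-- **Transport of norms.**  `relNorm W b` is the field norm of `b` from the fixed field of the
image of `W` in `Gal(L/ℚ_ℓ)`. -/
theorem exists_norm_eq_relNorm (L : IntermediateField ℚ_[ℓ] (PadicAlgCl ℓ))
    [FiniteDimensional ℚ_[ℓ] L] [IsGalois ℚ_[ℓ] L]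
    (W : Subgroup (PadicAlgCl ℓ ≃ₐ[ℚ_[ℓ]] PadicAlgCl ℓ)) (hW : L.fixingSubgroup ≤ W)
    (b : (PadicAlgCl ℓ)ˣ) (hb : LFixed ℓ W b) :
    ∃ bE : ↥(fixedField (W.map (AlgEquiv.restrictNormalHom
        (F := ℚ_[ℓ]) (K₁ := PadicAlgCl ℓ) ↥L))),
      (((bE : ↥L) : PadicAlgCl ℓ) = (b : PadicAlgCl ℓ)) ∧
      ((relNorm W b : (PadicAlgCl ℓ)ˣ) : PadicAlgCl ℓ) =
        algebraMap ℚ_[ℓ] (PadicAlgCl ℓ) (Algebra.norm ℚ_[ℓ] bE) := by
  classical
  haveI := BLocal.isGalois_padicAlgCl ℓ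
  set ρ := AlgEquiv.restrictNormalHom (F := ℚ_[ℓ]) (K₁ := PadicAlgCl ℓ) ↥L with hρ
  -- elements of the kernel of `ρ` fix `L`
  have hker : ∀ σ : PadicAlgCl ℓ ≃ₐ[ℚ_[ℓ]] PadicAlgCl ℓ, ρ σ = 1 → σ ∈ W := by
    intro σ hσ
    apply hW
    rw [IntermediateField.mem_fixingSubgroup_iff]
    intro x hx
    have h := AlgEquiv.restrictNormalHom_apply L σ ⟨x, hx⟩
    rw [← hρ, hσ] at h
    exact h.symm
  have hbact : ∀ w ∈ W, w (b : PadicAlgCl ℓ) = (b : PadicAlgCl ℓ) := by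
    intro w hw
    exact congrArg Units.val (hb w hw)
  -- `b ∈ L`
  have hbL : (b : PadicAlgCl ℓ) ∈ L := by
    rw [← InfiniteGalois.fixedField_fixingSubgroup L, mem_fixedField_iff]
    intro f hf
    exact hbact f (hW hf)
  have hbE : (⟨b, hbL⟩ : ↥L) ∈ fixedField (W.map ρ) := by
    rw [mem_fixedField_iff]
    rintro h ⟨w, hw, rfl⟩
    apply Subtype.ext
    rw [AlgEquiv.restrictNormalHom_apply]
    exact hbact w hw
  refine ⟨⟨⟨b, hbL⟩, hbE⟩, rfl, ?_⟩
  -- the embedding of the fixed field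
  let ι : ↥(fixedField (W.map ρ)) →ₐ[ℚ_[ℓ]] PadicAlgCl ℓ := L.val.comp (fixedField (W.map ρ)).val
  -- (F1) `W` fixes the image of `ι`
  have hF1 : ∀ w ∈ W, ∀ x : ↥(fixedField (W.map ρ)), w (ι x) = ι x := by
    intro w hw x
    have hx := (mem_fixedField_iff (W.map ρ) (x : ↥L)).1 x.2 (ρ w) ⟨w, hw, rfl⟩
    have h := AlgEquiv.restrictNormalHom_apply L w (x : ↥L)
    rw [← hρ, hx] at h
    exact h.symm
  -- (F2) an automorphism fixing the image of `ι` lies in `W`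
  have hF2 : ∀ τ : PadicAlgCl ℓ ≃ₐ[ℚ_[ℓ]] PadicAlgCl ℓ,
      (∀ x : ↥(fixedField (W.map ρ)), τ (ι x) = ι x) → τ ∈ W := by
    intro τ hτ
    have h1 : ρ τ ∈ (fixedField (W.map ρ)).fixingSubgroup := by
      rw [IntermediateField.mem_fixingSubgroup_iff]
      intro x hx
      apply Subtype.ext
      rw [AlgEquiv.restrictNormalHom_apply]
      exact hτ ⟨x, hx⟩
    rw [fixingSubgroup_fixedField] at h1
    obtain ⟨w, hw, hwτ⟩ := h1
    have h2 : ρ (w⁻¹ * τ) = 1 := by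
      rw [map_mul, map_inv, hwτ, inv_mul_cancel]
    have h3 := W.mul_mem hw (hker _ h2)
    rwa [mul_inv_cancel_left] at h3
  -- finiteness of the quotient
  haveI hfin : Finite ((PadicAlgCl ℓ ≃ₐ[ℚ_[ℓ]] PadicAlgCl ℓ) ⧸ W) := by
    haveI : ρ.ker.FiniteIndex := Subgroup.finiteIndex_ker ρ
    haveI : W.FiniteIndex := Subgroup.finiteIndex_of_le (H := ρ.ker) (fun σ hσ => hker σ hσ)
    exact Subgroup.finite_quotient_of_finiteIndex
  letI : Fintype ((PadicAlgCl ℓ ≃ₐ[ℚ_[ℓ]] PadicAlgCl ℓ) ⧸ W) := Fintype.ofFinite _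
  have h1 : ((relNorm W b : (PadicAlgCl ℓ)ˣ) : PadicAlgCl ℓ) =
      ∏ t : (PadicAlgCl ℓ ≃ₐ[ℚ_[ℓ]] PadicAlgCl ℓ) ⧸ W,
        (Quotient.out t : PadicAlgCl ℓ ≃ₐ[ℚ_[ℓ]] PadicAlgCl ℓ) (b : PadicAlgCl ℓ) := by
    unfold relNorm
    rw [finprod_eq_prod_of_fintype, Units.coe_prod]
    rfl
  rw [h1, Algebra.norm_eq_prod_embeddings ℚ_[ℓ] (PadicAlgCl ℓ)]
  refine Fintype.prod_bijective
    (fun t => (Quotient.out t : PadicAlgCl ℓ ≃ₐ[ℚ_[ℓ]] PadicAlgCl ℓ).toAlgHom.comp ι)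
    ⟨?_, ?_⟩ _ _ (fun t => rfl)
  · -- injective
    intro t t' htt
    have key : (Quotient.out t)⁻¹ * Quotient.out t' ∈ W := by
      apply hF2
      intro x
      have hx : (Quotient.out t : PadicAlgCl ℓ ≃ₐ[ℚ_[ℓ]] PadicAlgCl ℓ) (ι x) =
          (Quotient.out t' : PadicAlgCl ℓ ≃ₐ[ℚ_[ℓ]] PadicAlgCl ℓ) (ι x) := AlgHom.congr_fun htt x
      rw [AlgEquiv.mul_apply, ← hx]
      exact (Quotient.out t).symm_apply_apply (ι x)
    have := (QuotientGroup.eq (s := W)).2 key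
    rwa [QuotientGroup.out_eq', QuotientGroup.out_eq'] at this
  · -- surjective
    intro σ
    letI : Algebra ↥(fixedField (W.map ρ)) (PadicAlgCl ℓ) := ι.toRingHom.toAlgebra
    haveI : IsScalarTower ℚ_[ℓ] ↥(fixedField (W.map ρ)) (PadicAlgCl ℓ) :=
      IsScalarTower.of_algebraMap_eq (fun x => (ι.commutes x).symm)
    let τ₀ : PadicAlgCl ℓ →ₐ[ℚ_[ℓ]] PadicAlgCl ℓ := σ.liftNormal (PadicAlgCl ℓ)
    have hτ₀ : ∀ x, τ₀ (ι x) = σ x := fun x => AlgHom.liftNormal_commutes σ (PadicAlgCl ℓ) x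
    let τ : PadicAlgCl ℓ ≃ₐ[ℚ_[ℓ]] PadicAlgCl ℓ :=
      AlgEquiv.ofBijective τ₀ (Algebra.IsAlgebraic.algHom_bijective τ₀)
    obtain ⟨w, hw⟩ := QuotientGroup.mk_out_eq_mul W τ
    refine ⟨(τ : (PadicAlgCl ℓ ≃ₐ[ℚ_[ℓ]] PadicAlgCl ℓ) ⧸ W), ?_⟩
    apply AlgHom.ext
    intro x
    show (Quotient.out (τ : (PadicAlgCl ℓ ≃ₐ[ℚ_[ℓ]] PadicAlgCl ℓ) ⧸ W) :
      PadicAlgCl ℓ ≃ₐ[ℚ_[ℓ]] PadicAlgCl ℓ) (ι x) = σ x
    rw [hw, AlgEquiv.mul_apply, hF1 w w.2 x]
    exact hτ₀ x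

end Transport

end Fermat.Agent.S55.G.Rec.L5H241
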